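/-
PROGRAMME I (S33, p-new half), block B3 (expansion layer), node §4c (helper24): the smooth charts
of the tower of levels KEEP their family of levels.

Main's chain `SmoothFamilyAssembly.smoothChartOf_*` → `SmoothLevelsGlue.smoothChart_*_levels` →
`smooth_zero_levels` / `smooth_one_levels` builds a `SmoothChart` at every point of either
component which is not a crossing and forgets the `SmoothFamily` of finite levels it was built
from.  Here the same chain is re-run keeping the family: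

* `TowerFamily A hq hA O res Q T` : a parameter `t`, rings `R S` (`S : Finset Kb`), a
  `SmoothFamily A O res Q T t R (unif A hq hA)`, and the level facts `mono`, `const_mem`
  (`W'_S = A ∩ K₀(S) ⊆ R S`), `le_FS`, `frac_FS` (`Frac (R S) = K₀(S)·F_N`), `ord_t`, `hT` (a place centred at
  `R S` lies in the tube);
* `TowerFamily.chart` : its `SmoothChart`;
* `towerFamily_zero_fin`, `towerFamily_one_fin`, `towerFamily_zero_inf`, `towerFamily_one_inf` :
  the four cases of `SmoothLevelsGlue`, with `chart_towerFamily_*` : the chart is main's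
  `smoothChart_*_levels` (`rfl`);
* `towerFamily_zero`, `towerFamily_one` : the case split, with `chart_towerFamily_zero`,
  `chart_towerFamily_one` : the chart is main's `smooth_zero_levels`, `smooth_one_levels`.
-/
import Mathlib
import Fermat.Agent.BR.S0.SmoothLevelsGlue

set_option autoImplicit false
set_option linter.unusedSectionVars false

noncomputable section

namespace Fermat.Agent.FF3.SmoothFam

open AlgebraicCurve Fermat.Agent.Red Fermat.Agent.X0 Fermat.Agent.Val Fermat.Agent.BR.Centre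
  Fermat.Agent.BR.SpecialFibre Fermat.Agent.BR.S0 Fermat.Agent.BR.S0.RedModular
  Fermat.Agent.BR.S0.PointDict
  Fermat.Agent.BR.S0.SmoothAssembly Fermat.Agent.BR.Inst.Levels Fermat.Agent.BR.Inst.LevelsFamily
  Fermat.Agent.BR.Inst.SmoothInstGen Fermat.Agent.BR.S0.SmoothLevelsGlue

/-! ### the bundle -/

/-- **A smooth family over the tower of levels** `S : Finset Kb` (constants `W'_S = A ∩ K₀(S)`,
uniformizer `unif A hq hA S`), bundled with its parameter and its rings. -/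
structure TowerFamily {N : ℕ} [NeZero N] (A : ValuationSubring Kb) {q : ℕ} (hq : q.Prime)
    (hA : A.LiesOverPrime q) {k Ft : Type*} [Field k] [Field Ft] [Algebra k Ft]
    (O : ValuationSubring (Fb N)) (res : O →+* Ft) (Q : Place k Ft)
    (T : Set (Place Kb (Fb N))) where
  /-- the parameter -/
  t : Fb N
  /-- the local ring of the model of level `S` at the point -/
  R : Finset Kb → Subring (Fb N)
  /-- the family of levels -/
  fam : SmoothFamily A O res Q T t R (unif A hq hA)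
  mono : ∀ {S S' : Finset Kb}, S ⊆ S' → R S ≤ R S'
  /-- the constants of the level -/
  const_mem : ∀ (S : Finset Kb) (a : Kb), a ∈ WS A q S → algebraMap Kb (Fb N) a ∈ R S
  /-- the functions of the level are rational over the coefficient field of the level -/
  le_FS : ∀ S : Finset Kb, R S ≤ (FS N q S).toSubring
  /-- the fraction field of the level `S` is the field of the `K₀(S)`-rational functions -/
  frac_FS : ∀ (S : Finset Kb) (y : Fb N), y ∈ FS N q S →
    ∃ a b : R S, b ≠ 0 ∧ y * (b : Fb N) = (a : Fb N)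
  /-- the reduction of the parameter is a parameter at the point -/
  ord_t : ∀ h : t ∈ O, Q.ord (res ⟨t, h⟩) = 1
  /-- a place centred at a level lies in the tube -/
  hT : ∀ (S : Finset Kb) (P : Place Kb (Fb N)), CentredAt A (R S) P → P ∈ T

namespace TowerFamily

variable {N : ℕ} [NeZero N] {A : ValuationSubring Kb} {q : ℕ} {hq : q.Prime}
  {hA : A.LiesOverPrime q} {k Ft : Type*} [Field k] [Field Ft] [Algebra k Ft]
  {O : ValuationSubring (Fb N)} {res : O →+* Ft} {Q : Place k Ft}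
  {T : Set (Place Kb (Fb N))}

/-- the level `S` -/
theorem level (X : TowerFamily A hq hA O res Q T) (S : Finset Kb) :
    SmoothLevel A O res Q T X.t (X.R S) (unif A hq hA S) := X.fam.level S

/-- the functions of the level `S` are `K₀(S)`-rational, `FKs` form -/
theorem le_FKs (X : TowerFamily A hq hA O res Q T) (S : Finset Kb) :
    ∀ y ∈ X.R S, y ∈ Fermat.Agent.BR.Inst.FKCover.FKs N (KS q S) := fun _ hy => X.le_FS S hy

/-- the uniformizer of the level lies in the level -/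
theorem unif_mem (X : TowerFamily A hq hA O res Q T) (S : Finset Kb) :
    algebraMap Kb (Fb N) (unif A hq hA S) ∈ X.R S := (X.level S).unif_mem

/-- **The smooth chart of the bundle.** -/
def chart {π : A →+* k} (X : TowerFamily A hq hA O res Q T)
    (hres : ∀ (a : Kb) (ha : a ∈ A) (h : algebraMap Kb (Fb N) a ∈ O),
      res ⟨algebraMap Kb (Fb N) a, h⟩ = algebraMap k Ft (π ⟨a, ha⟩))
    (hAO : ∀ c : Kb, A.valuation c < 1 → algebraMap Kb (Fb N) c ∈ O.nonunits) :
    SmoothChart A O res Q T :=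
  X.fam.chart hres hAO X.ord_t

@[simp] theorem chart_R {π : A →+* k} (X : TowerFamily A hq hA O res Q T)
    (hres : ∀ (a : Kb) (ha : a ∈ A) (h : algebraMap Kb (Fb N) a ∈ O),
      res ⟨algebraMap Kb (Fb N) a, h⟩ = algebraMap k Ft (π ⟨a, ha⟩))
    (hAO : ∀ c : Kb, A.valuation c < 1 → algebraMap Kb (Fb N) c ∈ O.nonunits) :
    (X.chart hres hAO).R = ⨆ S, X.R S := rfl

@[simp] theorem chart_t {π : A →+* k} (X : TowerFamily A hq hA O res Q T)
    (hres : ∀ (a : Kb) (ha : a ∈ A) (h : algebraMap Kb (Fb N) a ∈ O),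
      res ⟨algebraMap Kb (Fb N) a, h⟩ = algebraMap k Ft (π ⟨a, ha⟩))
    (hAO : ∀ c : Kb, A.valuation c < 1 → algebraMap Kb (Fb N) c ∈ O.nonunits) :
    (X.chart hres hAO).t = X.t := rfl

/-- a constant of the maximal ideal of `A` which lies in a level is not a unit of the level -/
theorem not_isUnit_const (X : TowerFamily A hq hA O res Q T)
    (hAO : ∀ c : Kb, A.valuation c < 1 → algebraMap Kb (Fb N) c ∈ O.nonunits)
    (S : Finset Kb) {c : Kb} (hc : A.valuation c < 1) (h : algebraMap Kb (Fb N) c ∈ X.R S) :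
    ¬ IsUnit (⟨algebraMap Kb (Fb N) c, h⟩ : X.R S) := by
  intro hu
  obtain ⟨y, hy⟩ := isUnit_iff_exists_inv.mp hu
  have h2 : algebraMap Kb (Fb N) c * (y : Fb N) = 1 := congrArg (fun z : X.R S => (z : Fb N)) hy
  have h3 : (y : Fb N) ∈ O := (X.level S).le _ y.2
  have h4 := congrArg O.valuation h2
  rw [map_mul, map_one] at h4
  have h5 : O.valuation (algebraMap Kb (Fb N) c) < 1 :=
    (ValuationSubring.mem_nonunits_iff O).mp (hAO c hc)
  have h6 : O.valuation (y : Fb N) ≤ 1 := (O.valuation_le_one_iff _).mpr h3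
  have h7 : O.valuation (algebraMap Kb (Fb N) c) * O.valuation (y : Fb N) < 1 :=
    mul_lt_one_of_nonneg_of_lt_one_left zero_le h5 h6
  rw [h4] at h7
  exact lt_irrefl _ h7

/-- **The residue field of a level is the residue field of its ring of constants `W'_S`**: every
function of the level `S` is congruent to a constant of `W'_S = A ∩ K₀(S)` modulo the maximal
ideal. -/
theorem exists_const_sub_not_isUnit (X : TowerFamily A hq hA O res Q T)
    (hAO : ∀ c : Kb, A.valuation c < 1 → algebraMap Kb (Fb N) c ∈ O.nonunits)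
    (S : Finset Kb) (y : X.R S) :
    ∃ (a : Kb) (ha : a ∈ WS A q S),
      ¬ IsUnit (y - ⟨algebraMap Kb (Fb N) a, X.const_mem S a ha⟩) := by
  have := (X.level S).isLocal
  obtain ⟨a₀, h₀, hnu⟩ := (X.level S).residue y
  obtain ⟨a', ha', hd⟩ := fullRes_WS A hq hA S (a₀ : Kb) a₀.2
  refine ⟨a', ha', ?_⟩
  have hd1 : A.valuation ((a₀ : Kb) - a') < 1 := (ValuationSubring.mem_nonunits_iff A).mp hd
  have hmem : algebraMap Kb (Fb N) ((a₀ : Kb) - a') ∈ X.R S := by
    rw [map_sub]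
    exact (X.R S).sub_mem h₀ (X.const_mem S a' ha')
  have hnu2 := X.not_isUnit_const hAO S hd1 hmem
  have e : y - ⟨algebraMap Kb (Fb N) a', X.const_mem S a' ha'⟩ =
      (y - ⟨algebraMap Kb (Fb N) (a₀ : Kb), h₀⟩) +
        ⟨algebraMap Kb (Fb N) ((a₀ : Kb) - a'), hmem⟩ := by
    apply Subtype.ext
    show (y : Fb N) - algebraMap Kb (Fb N) a' =
      ((y : Fb N) - algebraMap Kb (Fb N) (a₀ : Kb)) + algebraMap Kb (Fb N) ((a₀ : Kb) - a')
    rw [map_sub]
    ring
  rw [e]
  exact fun hu => (IsLocalRing.isUnit_or_isUnit_of_isUnit_add hu).elim hnu hnu2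

/-- the tube is the set of the places centred at a level -/
theorem mem_tube_iff (X : TowerFamily A hq hA O res Q T) (S : Finset Kb)
    (P : Place Kb (Fb N)) : P ∈ T ↔ CentredAt A (X.R S) P :=
  ⟨fun hP => (X.level S).centred P hP, X.hT S P⟩

end TowerFamily

/-! ### the functions of the local ring of a model are rational over the level -/

section Loc

variable {K F k : Type*} [Field K] [Field F] [Algebra K F] [Field k]
  {Ft : Type*} [Field Ft] [Algebra k Ft]
  {A : ValuationSubring K} {π : A →+* k} {O : ValuationSubring F} {res : O →+* Ft}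
  {Q : Place k Ft} {T : Set (Place K F)} {t : F} {C : Subring F} {ϖ : K}

/-- the local ring at the point of a model contained in a subfield is contained in it -/
theorem loc_le_of_le (M : SmoothModel A π O res Q T t C ϖ) {E : Subfield F}
    (h : C ≤ E.toSubring) : M.loc ≤ E.toSubring := by
  intro x hx
  obtain ⟨a, b, hb, hab⟩ := M.mem_loc_iff.mp hx
  have hb0 : (b : F) ≠ 0 := M.coe_ne_zero_of_notMem hb
  have e : x = (a : F) * ((b : F))⁻¹ := by
    rw [← hab, mul_assoc, mul_inv_cancel₀ hb0, mul_one]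
  rw [e]
  exact E.mul_mem (h a.2) (E.inv_mem (h b.2))

end Loc

/-! ### the four cases -/

section Levels

variable {N : ℕ} [NeZero N] {A : ValuationSubring Kb} {q : ℕ}
  {k Ft : Type*} [Field k] [Field Ft] [Algebra k Ft] {π : A →+* k}
  {Dk : Type*} [CommRing Dk] [IsDedekindDomain Dk] [Algebra Dk Ft] [IsFractionRing Dk Ft]
  [Algebra k Dk] [IsScalarTower k Dk Ft]
  {Cr : Fin 2 → ConstRed (F := Fb N) (Ft := Ft) A π} {Rfin Rinf : Subring (Fb N)}
  {hfin : ∀ v, Rfin ≤ (Cr v).O.toSubring} {hinf : ∀ v, Rinf ≤ (Cr v).O.toSubring} {x : Fb N}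
  (H : AtlasHyp (chartDataOf Cr Rfin Rinf hfin hinf) x)
  {base : Finset Kb → Subring (Fb N)} (hb : BaseFamily N A q base)
  (hq : q.Prime) (hA : A.LiesOverPrime q)
  {P₀ P₁ : ∀ S, Ideal (CS N q base S)} {red₀ red₁ : ∀ S, CS N q base S →+* Dk}
  (L : ∀ S, LevelHyp (chartDataOf Cr Rfin Rinf hfin hinf) (CS N q base S) (unif A hq hA S)
    (P₀ S) (P₁ S) (red₀ S) (red₁ S))

include hb in
/-- the model of level `S` at a point of the component `0` read on the finite chart -/
theorem model_zero_fin (hnf : ¬ IsField Dk) (hRC : ∀ S, Rfin ≤ CS N q base S)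
    (hint : ∀ S (P : Place Kb (Fb N)), IntegralAt A Rfin P → IntegralAt A (CS N q base S) P)
    {Q : Place k Ft} (hQ : ∀ e, Q ≠ z₁ (chartDataOf Cr Rfin Rinf hfin hinf) e) {c : k}
    (hx : IsValueAt Q ((Cr 0).res ⟨x, hfin 0 H.x_mem⟩) c)
    (hQD : ∀ d : Dk, Q.adicValuation (algebraMap Dk Ft d) ≤ 1) (hdeg : Q.deg = 1)
    (S : Finset Kb) :
    SmoothModel A π (Cr 0).O (Cr 0).res Q {P | H.r P = ⟨0, Q⟩}
      (exists_param_zero (L ∅) hQD).choose (CS N q base S) (unif A hq hA S) :=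
  (L S).smoothModel_zero_fin H hnf (fun v => (Cr v).res_algebraMap)
    (fun y hy => (constRed_res_eq_zero_iff (Cr 0) y).mpr hy) (hRC S) (hint S) hQ hx hQD hdeg
    (CS_mono hb (Finset.empty_subset S) (exists_param_zero (L ∅) hQD).choose_spec.1)
    ((exists_param_zero (L ∅) hQD).choose_spec.2 _)

/-- **The family at a point of the component `0` read on the finite chart.** -/
def towerFamily_zero_fin (hnf : ¬ IsField Dk) (hRC : ∀ S, Rfin ≤ CS N q base S)
    (hint : ∀ S (P : Place Kb (Fb N)), IntegralAt A Rfin P → IntegralAt A (CS N q base S) P)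
    {Q : Place k Ft} (hQ : ∀ e, Q ≠ z₁ (chartDataOf Cr Rfin Rinf hfin hinf) e) {c : k}
    (hx : IsValueAt Q ((Cr 0).res ⟨x, hfin 0 H.x_mem⟩) c)
    (hQD : ∀ d : Dk, Q.adicValuation (algebraMap Dk Ft d) ≤ 1) (hdeg : Q.deg = 1) :
    TowerFamily A hq hA (Cr 0).O (Cr 0).res Q {P | H.r P = ⟨0, Q⟩} where
  t := (exists_param_zero (L ∅) hQD).choose
  R S := (model_zero_fin H hb hq hA L hnf hRC hint hQ hx hQD hdeg S).loc
  fam := SmoothFamily.ofModels (model_zero_fin H hb hq hA L hnf hRC hint hQ hx hQD hdeg)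
    (CS_directed hb) (CS_frac hb) (CS_const hb) (Cr 0).res_algebraMap
    (constRed_res_eq_zero_iff (Cr 0)) (inv_mem_of_pi_ne_zero H.pi_zero)
    (fun S => SmoothModel.horiz_level hb hq hA S _
      (constRed_res_eq_zero_iff (Cr 0)) (constRed_algebraMap_mem_nonunits (Cr 0)))
  mono h := SmoothModel.loc_mono _ _ (CS_mono hb h)
  const_mem _ _ ha := SmoothModel.le_loc _ (const_mem_CS hb ha)
  le_FS S := loc_le_of_le _ (CS_le_FS S)
  frac_FS S y hy := by
    obtain ⟨a, b, hb0, hab⟩ := hb.frac S y hy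
    exact ⟨⟨a, SmoothModel.le_loc _ a.2⟩, ⟨b, SmoothModel.le_loc _ b.2⟩,
      fun h0 => hb0 (Subtype.ext (congrArg (fun z : SmoothModel.loc _ => (z : Fb N)) h0)), hab⟩
  ord_t := (exists_param_zero (L ∅) hQD).choose_spec.2
  hT _ _ hc := SmoothModel.mem_tube_of_centredAt _ hc

theorem chart_towerFamily_zero_fin (hnf : ¬ IsField Dk) (hRC : ∀ S, Rfin ≤ CS N q base S)
    (hint : ∀ S (P : Place Kb (Fb N)), IntegralAt A Rfin P → IntegralAt A (CS N q base S) P)
    {Q : Place k Ft} (hQ : ∀ e, Q ≠ z₁ (chartDataOf Cr Rfin Rinf hfin hinf) e) {c : k}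
    (hx : IsValueAt Q ((Cr 0).res ⟨x, hfin 0 H.x_mem⟩) c)
    (hQD : ∀ d : Dk, Q.adicValuation (algebraMap Dk Ft d) ≤ 1) (hdeg : Q.deg = 1) :
    (towerFamily_zero_fin H hb hq hA L hnf hRC hint hQ hx hQD hdeg).chart
        (Cr 0).res_algebraMap (constRed_algebraMap_mem_nonunits (Cr 0)) =
      smoothChart_zero_fin_levels H hb hq hA L hnf hRC hint hQ hx hQD hdeg := rfl

include hb in
/-- the model of level `S` at a point of the component `1` read on the finite chart -/
theorem model_one_fin (hnf : ¬ IsField Dk) (hRC : ∀ S, Rfin ≤ CS N q base S)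
    (hint : ∀ S (P : Place Kb (Fb N)), IntegralAt A Rfin P → IntegralAt A (CS N q base S) P)
    {Q : Place k Ft} (hQ : ∀ e, Q ≠ z₂ (chartDataOf Cr Rfin Rinf hfin hinf) e) {c : k}
    (hx : IsValueAt Q ((Cr 1).res ⟨x, hfin 1 H.x_mem⟩) c)
    (hQD : ∀ d : Dk, Q.adicValuation (algebraMap Dk Ft d) ≤ 1) (hdeg : Q.deg = 1)
    (S : Finset Kb) :
    SmoothModel A π (Cr 1).O (Cr 1).res Q {P | H.r P = ⟨1, Q⟩}
      (exists_param_one (L ∅) hQD).choose (CS N q base S) (unif A hq hA S) :=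
  (L S).smoothModel_one_fin H hnf (fun v => (Cr v).res_algebraMap)
    (fun y hy => (constRed_res_eq_zero_iff (Cr 1) y).mpr hy) (hRC S) (hint S) hQ hx hQD hdeg
    (CS_mono hb (Finset.empty_subset S) (exists_param_one (L ∅) hQD).choose_spec.1)
    ((exists_param_one (L ∅) hQD).choose_spec.2 _)

/-- **The family at a point of the component `1` read on the finite chart.** -/
def towerFamily_one_fin (hnf : ¬ IsField Dk) (hRC : ∀ S, Rfin ≤ CS N q base S)
    (hint : ∀ S (P : Place Kb (Fb N)), IntegralAt A Rfin P → IntegralAt A (CS N q base S) P)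
    {Q : Place k Ft} (hQ : ∀ e, Q ≠ z₂ (chartDataOf Cr Rfin Rinf hfin hinf) e) {c : k}
    (hx : IsValueAt Q ((Cr 1).res ⟨x, hfin 1 H.x_mem⟩) c)
    (hQD : ∀ d : Dk, Q.adicValuation (algebraMap Dk Ft d) ≤ 1) (hdeg : Q.deg = 1) :
    TowerFamily A hq hA (Cr 1).O (Cr 1).res Q {P | H.r P = ⟨1, Q⟩} where
  t := (exists_param_one (L ∅) hQD).choose
  R S := (model_one_fin H hb hq hA L hnf hRC hint hQ hx hQD hdeg S).loc
  fam := SmoothFamily.ofModels (model_one_fin H hb hq hA L hnf hRC hint hQ hx hQD hdeg)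
    (CS_directed hb) (CS_frac hb) (CS_const hb) (Cr 1).res_algebraMap
    (constRed_res_eq_zero_iff (Cr 1)) (inv_mem_of_pi_ne_zero H.pi_zero)
    (fun S => SmoothModel.horiz_level hb hq hA S _
      (constRed_res_eq_zero_iff (Cr 1)) (constRed_algebraMap_mem_nonunits (Cr 1)))
  mono h := SmoothModel.loc_mono _ _ (CS_mono hb h)
  const_mem _ _ ha := SmoothModel.le_loc _ (const_mem_CS hb ha)
  le_FS S := loc_le_of_le _ (CS_le_FS S)
  frac_FS S y hy := by
    obtain ⟨a, b, hb0, hab⟩ := hb.frac S y hy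
    exact ⟨⟨a, SmoothModel.le_loc _ a.2⟩, ⟨b, SmoothModel.le_loc _ b.2⟩,
      fun h0 => hb0 (Subtype.ext (congrArg (fun z : SmoothModel.loc _ => (z : Fb N)) h0)), hab⟩
  ord_t := (exists_param_one (L ∅) hQD).choose_spec.2
  hT _ _ hc := SmoothModel.mem_tube_of_centredAt _ hc

theorem chart_towerFamily_one_fin (hnf : ¬ IsField Dk) (hRC : ∀ S, Rfin ≤ CS N q base S)
    (hint : ∀ S (P : Place Kb (Fb N)), IntegralAt A Rfin P → IntegralAt A (CS N q base S) P)
    {Q : Place k Ft} (hQ : ∀ e, Q ≠ z₂ (chartDataOf Cr Rfin Rinf hfin hinf) e) {c : k}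
    (hx : IsValueAt Q ((Cr 1).res ⟨x, hfin 1 H.x_mem⟩) c)
    (hQD : ∀ d : Dk, Q.adicValuation (algebraMap Dk Ft d) ≤ 1) (hdeg : Q.deg = 1) :
    (towerFamily_one_fin H hb hq hA L hnf hRC hint hQ hx hQD hdeg).chart
        (Cr 1).res_algebraMap (constRed_algebraMap_mem_nonunits (Cr 1)) =
      smoothChart_one_fin_levels H hb hq hA L hnf hRC hint hQ hx hQD hdeg := rfl

include hb in
/-- the model of level `S` at a point of the component `0` read on the chart at infinity -/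
theorem model_zero_inf (hnf : ¬ IsField Dk) (hRC : ∀ S, Rinf ≤ CS N q base S)
    (hint : ∀ S (P : Place Kb (Fb N)), IntegralAt A Rinf P → IntegralAt A (CS N q base S) P)
    {Q : Place k Ft} (hQ : ∀ e, Q ≠ z₁ (chartDataOf Cr Rfin Rinf hfin hinf) e)
    (hi : IsValueAt Q ((Cr 0).res ⟨x⁻¹, hinf 0 H.inv_mem⟩) 0)
    (hQD : ∀ d : Dk, Q.adicValuation (algebraMap Dk Ft d) ≤ 1) (hdeg : Q.deg = 1)
    (S : Finset Kb) :
    SmoothModel A π (Cr 0).O (Cr 0).res Q {P | H.r P = ⟨0, Q⟩}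
      (exists_param_zero (L ∅) hQD).choose (CS N q base S) (unif A hq hA S) :=
  (L S).smoothModel_zero_inf H hnf (fun v => (Cr v).res_algebraMap)
    (fun y hy => (constRed_res_eq_zero_iff (Cr 0) y).mpr hy) (hRC S) (hint S) hQ hi hQD hdeg
    (CS_mono hb (Finset.empty_subset S) (exists_param_zero (L ∅) hQD).choose_spec.1)
    ((exists_param_zero (L ∅) hQD).choose_spec.2 _)

/-- **The family at a point of the component `0` read on the chart at infinity.** -/
def towerFamily_zero_inf (hnf : ¬ IsField Dk) (hRC : ∀ S, Rinf ≤ CS N q base S)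
    (hint : ∀ S (P : Place Kb (Fb N)), IntegralAt A Rinf P → IntegralAt A (CS N q base S) P)
    {Q : Place k Ft} (hQ : ∀ e, Q ≠ z₁ (chartDataOf Cr Rfin Rinf hfin hinf) e)
    (hi : IsValueAt Q ((Cr 0).res ⟨x⁻¹, hinf 0 H.inv_mem⟩) 0)
    (hQD : ∀ d : Dk, Q.adicValuation (algebraMap Dk Ft d) ≤ 1) (hdeg : Q.deg = 1) :
    TowerFamily A hq hA (Cr 0).O (Cr 0).res Q {P | H.r P = ⟨0, Q⟩} where
  t := (exists_param_zero (L ∅) hQD).choose
  R S := (model_zero_inf H hb hq hA L hnf hRC hint hQ hi hQD hdeg S).loc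
  fam := SmoothFamily.ofModels (model_zero_inf H hb hq hA L hnf hRC hint hQ hi hQD hdeg)
    (CS_directed hb) (CS_frac hb) (CS_const hb) (Cr 0).res_algebraMap
    (constRed_res_eq_zero_iff (Cr 0)) (inv_mem_of_pi_ne_zero H.pi_zero)
    (fun S => SmoothModel.horiz_level hb hq hA S _
      (constRed_res_eq_zero_iff (Cr 0)) (constRed_algebraMap_mem_nonunits (Cr 0)))
  mono h := SmoothModel.loc_mono _ _ (CS_mono hb h)
  const_mem _ _ ha := SmoothModel.le_loc _ (const_mem_CS hb ha)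
  le_FS S := loc_le_of_le _ (CS_le_FS S)
  frac_FS S y hy := by
    obtain ⟨a, b, hb0, hab⟩ := hb.frac S y hy
    exact ⟨⟨a, SmoothModel.le_loc _ a.2⟩, ⟨b, SmoothModel.le_loc _ b.2⟩,
      fun h0 => hb0 (Subtype.ext (congrArg (fun z : SmoothModel.loc _ => (z : Fb N)) h0)), hab⟩
  ord_t := (exists_param_zero (L ∅) hQD).choose_spec.2
  hT _ _ hc := SmoothModel.mem_tube_of_centredAt _ hc

theorem chart_towerFamily_zero_inf (hnf : ¬ IsField Dk) (hRC : ∀ S, Rinf ≤ CS N q base S)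
    (hint : ∀ S (P : Place Kb (Fb N)), IntegralAt A Rinf P → IntegralAt A (CS N q base S) P)
    {Q : Place k Ft} (hQ : ∀ e, Q ≠ z₁ (chartDataOf Cr Rfin Rinf hfin hinf) e)
    (hi : IsValueAt Q ((Cr 0).res ⟨x⁻¹, hinf 0 H.inv_mem⟩) 0)
    (hQD : ∀ d : Dk, Q.adicValuation (algebraMap Dk Ft d) ≤ 1) (hdeg : Q.deg = 1) :
    (towerFamily_zero_inf H hb hq hA L hnf hRC hint hQ hi hQD hdeg).chart
        (Cr 0).res_algebraMap (constRed_algebraMap_mem_nonunits (Cr 0)) =
      smoothChart_zero_inf_levels H hb hq hA L hnf hRC hint hQ hi hQD hdeg := rfl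

include hb in
/-- the model of level `S` at a point of the component `1` read on the chart at infinity -/
theorem model_one_inf (hnf : ¬ IsField Dk) (hRC : ∀ S, Rinf ≤ CS N q base S)
    (hint : ∀ S (P : Place Kb (Fb N)), IntegralAt A Rinf P → IntegralAt A (CS N q base S) P)
    {Q : Place k Ft} (hQ : ∀ e, Q ≠ z₂ (chartDataOf Cr Rfin Rinf hfin hinf) e)
    (hi : IsValueAt Q ((Cr 1).res ⟨x⁻¹, hinf 1 H.inv_mem⟩) 0)
    (hQD : ∀ d : Dk, Q.adicValuation (algebraMap Dk Ft d) ≤ 1) (hdeg : Q.deg = 1)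
    (S : Finset Kb) :
    SmoothModel A π (Cr 1).O (Cr 1).res Q {P | H.r P = ⟨1, Q⟩}
      (exists_param_one (L ∅) hQD).choose (CS N q base S) (unif A hq hA S) :=
  (L S).smoothModel_one_inf H hnf (fun v => (Cr v).res_algebraMap)
    (fun y hy => (constRed_res_eq_zero_iff (Cr 1) y).mpr hy) (hRC S) (hint S) hQ hi hQD hdeg
    (CS_mono hb (Finset.empty_subset S) (exists_param_one (L ∅) hQD).choose_spec.1)
    ((exists_param_one (L ∅) hQD).choose_spec.2 _)

/-- **The family at a point of the component `1` read on the chart at infinity.** -/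
def towerFamily_one_inf (hnf : ¬ IsField Dk) (hRC : ∀ S, Rinf ≤ CS N q base S)
    (hint : ∀ S (P : Place Kb (Fb N)), IntegralAt A Rinf P → IntegralAt A (CS N q base S) P)
    {Q : Place k Ft} (hQ : ∀ e, Q ≠ z₂ (chartDataOf Cr Rfin Rinf hfin hinf) e)
    (hi : IsValueAt Q ((Cr 1).res ⟨x⁻¹, hinf 1 H.inv_mem⟩) 0)
    (hQD : ∀ d : Dk, Q.adicValuation (algebraMap Dk Ft d) ≤ 1) (hdeg : Q.deg = 1) :
    TowerFamily A hq hA (Cr 1).O (Cr 1).res Q {P | H.r P = ⟨1, Q⟩} where
  t := (exists_param_one (L ∅) hQD).choose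
  R S := (model_one_inf H hb hq hA L hnf hRC hint hQ hi hQD hdeg S).loc
  fam := SmoothFamily.ofModels (model_one_inf H hb hq hA L hnf hRC hint hQ hi hQD hdeg)
    (CS_directed hb) (CS_frac hb) (CS_const hb) (Cr 1).res_algebraMap
    (constRed_res_eq_zero_iff (Cr 1)) (inv_mem_of_pi_ne_zero H.pi_zero)
    (fun S => SmoothModel.horiz_level hb hq hA S _
      (constRed_res_eq_zero_iff (Cr 1)) (constRed_algebraMap_mem_nonunits (Cr 1)))
  mono h := SmoothModel.loc_mono _ _ (CS_mono hb h)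
  const_mem _ _ ha := SmoothModel.le_loc _ (const_mem_CS hb ha)
  le_FS S := loc_le_of_le _ (CS_le_FS S)
  frac_FS S y hy := by
    obtain ⟨a, b, hb0, hab⟩ := hb.frac S y hy
    exact ⟨⟨a, SmoothModel.le_loc _ a.2⟩, ⟨b, SmoothModel.le_loc _ b.2⟩,
      fun h0 => hb0 (Subtype.ext (congrArg (fun z : SmoothModel.loc _ => (z : Fb N)) h0)), hab⟩
  ord_t := (exists_param_one (L ∅) hQD).choose_spec.2
  hT _ _ hc := SmoothModel.mem_tube_of_centredAt _ hc

theorem chart_towerFamily_one_inf (hnf : ¬ IsField Dk) (hRC : ∀ S, Rinf ≤ CS N q base S)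
    (hint : ∀ S (P : Place Kb (Fb N)), IntegralAt A Rinf P → IntegralAt A (CS N q base S) P)
    {Q : Place k Ft} (hQ : ∀ e, Q ≠ z₂ (chartDataOf Cr Rfin Rinf hfin hinf) e)
    (hi : IsValueAt Q ((Cr 1).res ⟨x⁻¹, hinf 1 H.inv_mem⟩) 0)
    (hQD : ∀ d : Dk, Q.adicValuation (algebraMap Dk Ft d) ≤ 1) (hdeg : Q.deg = 1) :
    (towerFamily_one_inf H hb hq hA L hnf hRC hint hQ hi hQD hdeg).chart
        (Cr 1).res_algebraMap (constRed_algebraMap_mem_nonunits (Cr 1)) =
      smoothChart_one_inf_levels H hb hq hA L hnf hRC hint hQ hi hQD hdeg := rfl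

end Levels

/-! ### the case split -/

section Split

variable {N : ℕ} [NeZero N] {A : ValuationSubring Kb} {q : ℕ}
  {k Ft : Type*} [Field k] [Field Ft] [Algebra k Ft] {π : A →+* k}
  {Dkf : Type*} [CommRing Dkf] [IsDedekindDomain Dkf] [Algebra Dkf Ft] [IsFractionRing Dkf Ft]
  [Algebra k Dkf] [IsScalarTower k Dkf Ft]
  {Dki : Type*} [CommRing Dki] [IsDedekindDomain Dki] [Algebra Dki Ft] [IsFractionRing Dki Ft]
  [Algebra k Dki] [IsScalarTower k Dki Ft]
  {Cr : Fin 2 → ConstRed (F := Fb N) (Ft := Ft) A π} {Rfin Rinf : Subring (Fb N)}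
  {hfin : ∀ v, Rfin ≤ (Cr v).O.toSubring} {hinf : ∀ v, Rinf ≤ (Cr v).O.toSubring} {x : Fb N}
  (H : AtlasHyp (chartDataOf Cr Rfin Rinf hfin hinf) x)
  {basef basei : Finset Kb → Subring (Fb N)} (hbf : BaseFamily N A q basef)
  (hbi : BaseFamily N A q basei) (hq : q.Prime) (hA : A.LiesOverPrime q)
  {P₀f P₁f : ∀ S, Ideal (CS N q basef S)} {red₀f red₁f : ∀ S, CS N q basef S →+* Dkf}
  {P₀i P₁i : ∀ S, Ideal (CS N q basei S)} {red₀i red₁i : ∀ S, CS N q basei S →+* Dki}
  (Lf : ∀ S, LevelHyp (chartDataOf Cr Rfin Rinf hfin hinf) (CS N q basef S) (unif A hq hA S)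
    (P₀f S) (P₁f S) (red₀f S) (red₁f S))
  (Li : ∀ S, LevelHyp (chartDataOf Cr Rfin Rinf hfin hinf) (CS N q basei S) (unif A hq hA S)
    (P₀i S) (P₁i S) (red₀i S) (red₁i S))

/-- **The family at every point of the component `0` which is not a crossing.** -/
def towerFamily_zero (hnff : ¬ IsField Dkf) (hnfi : ¬ IsField Dki)
    (hRCf : ∀ S, Rfin ≤ CS N q basef S) (hRCi : ∀ S, Rinf ≤ CS N q basei S)
    (hintf : ∀ S (P : Place Kb (Fb N)), IntegralAt A Rfin P → IntegralAt A (CS N q basef S) P)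
    (hinti : ∀ S (P : Place Kb (Fb N)), IntegralAt A Rinf P → IntegralAt A (CS N q basei S) P)
    (hdeg : ∀ Q : Place k Ft, Q.deg = 1)
    (hQDf : ∀ Q : Place k Ft, (Cr 0).res ⟨x, hfin 0 H.x_mem⟩ ∈ Q.toValuationSubring →
      ∀ d : Dkf, Q.adicValuation (algebraMap Dkf Ft d) ≤ 1)
    (hQDi : ∀ Q : Place k Ft, Q.adicValuation ((Cr 0).res ⟨x⁻¹, hinf 0 H.inv_mem⟩) < 1 →
      ∀ d : Dki, Q.adicValuation (algebraMap Dki Ft d) ≤ 1)
    (Q : Place k Ft) (hQ : ∀ e, Q ≠ z₁ (chartDataOf Cr Rfin Rinf hfin hinf) e) :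
    TowerFamily A hq hA (Cr 0).O (Cr 0).res Q {P | H.r P = ⟨0, Q⟩} :=
  open Classical in
  if h : (Cr 0).res ⟨x, hfin 0 H.x_mem⟩ ∈ Q.toValuationSubring then
    towerFamily_zero_fin H hbf hq hA Lf hnff hRCf hintf hQ
      (exists_isValueAt Q (hdeg Q) h).choose_spec (hQDf Q h) (hdeg Q)
  else
    towerFamily_zero_inf H hbi hq hA Li hnfi hRCi hinti hQ
      (isValueAt_zero_iff.mpr (adicValuation_lt_one_of_mul_eq_one (res_mul_res_inv H 0) h))
      (hQDi Q (adicValuation_lt_one_of_mul_eq_one (res_mul_res_inv H 0) h)) (hdeg Q)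

/-- **The family at every point of the component `1` which is not a crossing.** -/
def towerFamily_one (hnff : ¬ IsField Dkf) (hnfi : ¬ IsField Dki)
    (hRCf : ∀ S, Rfin ≤ CS N q basef S) (hRCi : ∀ S, Rinf ≤ CS N q basei S)
    (hintf : ∀ S (P : Place Kb (Fb N)), IntegralAt A Rfin P → IntegralAt A (CS N q basef S) P)
    (hinti : ∀ S (P : Place Kb (Fb N)), IntegralAt A Rinf P → IntegralAt A (CS N q basei S) P)
    (hdeg : ∀ Q : Place k Ft, Q.deg = 1)
    (hQDf : ∀ Q : Place k Ft, (Cr 1).res ⟨x, hfin 1 H.x_mem⟩ ∈ Q.toValuationSubring →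
      ∀ d : Dkf, Q.adicValuation (algebraMap Dkf Ft d) ≤ 1)
    (hQDi : ∀ Q : Place k Ft, Q.adicValuation ((Cr 1).res ⟨x⁻¹, hinf 1 H.inv_mem⟩) < 1 →
      ∀ d : Dki, Q.adicValuation (algebraMap Dki Ft d) ≤ 1)
    (Q : Place k Ft) (hQ : ∀ e, Q ≠ z₂ (chartDataOf Cr Rfin Rinf hfin hinf) e) :
    TowerFamily A hq hA (Cr 1).O (Cr 1).res Q {P | H.r P = ⟨1, Q⟩} :=
  open Classical in
  if h : (Cr 1).res ⟨x, hfin 1 H.x_mem⟩ ∈ Q.toValuationSubring then
    towerFamily_one_fin H hbf hq hA Lf hnff hRCf hintf hQ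
      (exists_isValueAt Q (hdeg Q) h).choose_spec (hQDf Q h) (hdeg Q)
  else
    towerFamily_one_inf H hbi hq hA Li hnfi hRCi hinti hQ
      (isValueAt_zero_iff.mpr (adicValuation_lt_one_of_mul_eq_one (res_mul_res_inv H 1) h))
      (hQDi Q (adicValuation_lt_one_of_mul_eq_one (res_mul_res_inv H 1) h)) (hdeg Q)

/-- the chart of `towerFamily_zero` is main's `smooth_zero_levels` -/
theorem chart_towerFamily_zero (hnff : ¬ IsField Dkf) (hnfi : ¬ IsField Dki)
    (hRCf : ∀ S, Rfin ≤ CS N q basef S) (hRCi : ∀ S, Rinf ≤ CS N q basei S)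
    (hintf : ∀ S (P : Place Kb (Fb N)), IntegralAt A Rfin P → IntegralAt A (CS N q basef S) P)
    (hinti : ∀ S (P : Place Kb (Fb N)), IntegralAt A Rinf P → IntegralAt A (CS N q basei S) P)
    (hdeg : ∀ Q : Place k Ft, Q.deg = 1)
    (hQDf : ∀ Q : Place k Ft, (Cr 0).res ⟨x, hfin 0 H.x_mem⟩ ∈ Q.toValuationSubring →
      ∀ d : Dkf, Q.adicValuation (algebraMap Dkf Ft d) ≤ 1)
    (hQDi : ∀ Q : Place k Ft, Q.adicValuation ((Cr 0).res ⟨x⁻¹, hinf 0 H.inv_mem⟩) < 1 →
      ∀ d : Dki, Q.adicValuation (algebraMap Dki Ft d) ≤ 1)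
    (Q : Place k Ft) (hQ : ∀ e, Q ≠ z₁ (chartDataOf Cr Rfin Rinf hfin hinf) e) :
    (towerFamily_zero H hbf hbi hq hA Lf Li hnff hnfi hRCf hRCi hintf hinti hdeg hQDf hQDi
        Q hQ).chart (Cr 0).res_algebraMap (constRed_algebraMap_mem_nonunits (Cr 0)) =
      smooth_zero_levels H hbf hbi hq hA Lf Li hnff hnfi hRCf hRCi hintf hinti hdeg hQDf hQDi
        Q hQ := by
  unfold towerFamily_zero smooth_zero_levels
  split_ifs with h
  · rfl
  · rfl

/-- the chart of `towerFamily_one` is main's `smooth_one_levels` -/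
theorem chart_towerFamily_one (hnff : ¬ IsField Dkf) (hnfi : ¬ IsField Dki)
    (hRCf : ∀ S, Rfin ≤ CS N q basef S) (hRCi : ∀ S, Rinf ≤ CS N q basei S)
    (hintf : ∀ S (P : Place Kb (Fb N)), IntegralAt A Rfin P → IntegralAt A (CS N q basef S) P)
    (hinti : ∀ S (P : Place Kb (Fb N)), IntegralAt A Rinf P → IntegralAt A (CS N q basei S) P)
    (hdeg : ∀ Q : Place k Ft, Q.deg = 1)
    (hQDf : ∀ Q : Place k Ft, (Cr 1).res ⟨x, hfin 1 H.x_mem⟩ ∈ Q.toValuationSubring →
      ∀ d : Dkf, Q.adicValuation (algebraMap Dkf Ft d) ≤ 1)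
    (hQDi : ∀ Q : Place k Ft, Q.adicValuation ((Cr 1).res ⟨x⁻¹, hinf 1 H.inv_mem⟩) < 1 →
      ∀ d : Dki, Q.adicValuation (algebraMap Dki Ft d) ≤ 1)
    (Q : Place k Ft) (hQ : ∀ e, Q ≠ z₂ (chartDataOf Cr Rfin Rinf hfin hinf) e) :
    (towerFamily_one H hbf hbi hq hA Lf Li hnff hnfi hRCf hRCi hintf hinti hdeg hQDf hQDi
        Q hQ).chart (Cr 1).res_algebraMap (constRed_algebraMap_mem_nonunits (Cr 1)) =
      smooth_one_levels H hbf hbi hq hA Lf Li hnff hnfi hRCf hRCi hintf hinti hdeg hQDf hQDi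
        Q hQ := by
  unfold towerFamily_one smooth_one_levels
  split_ifs with h
  · rfl
  · rfl

end Split

end Fermat.Agent.FF3.SmoothFam
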