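/-
PROGRAMME I (S33, p-new half), block B3 (expansion layer), node §4c (helper24): the families of
levels of the smooth charts of the modular atlas.

At every point `Q` of either component of the model of `X₀(qM)` at `q` which is not a crossing:
`towerFamily_zero_atlas`, `towerFamily_one_atlas` (any proof `H` of the atlas hypotheses),
`towerFamily₀_modular`, `towerFamily₁_modular` (the atlas hypotheses of `GeomInputs`) — a
`TowerFamily` (parameter, local rings `R S` of the models of level `S : Finset Kb`,
`SmoothFamily`, constants, rationality) on the tube `{P | H.r P = ⟨v, Q⟩}`, whose chart is main's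
`SmoothModularAll.smooth_zero_atlas` / `smooth_one_atlas` / `smooth₀_modular` / `smooth₁_modular`
(`chart_towerFamily_*`).
-/
import Mathlib
import Fermat.Agent.BR.Inst.SmoothModularAll
import Fermat.Agent.FF3.SmoothFam.Tower

set_option autoImplicit false
set_option linter.unusedSectionVars false
set_option linter.style.haveILetI false

noncomputable section

namespace Fermat.Agent.FF3.SmoothFam

open ModularCurve ModularCurve.IgusaScheme AlgebraicCurve IsLocalRing
open Fermat.Agent.X0 Fermat.Agent.Val Fermat.Agent.Red Fermat.Agent.BR.Centre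
open Fermat.Agent.BR.TwoVal Fermat.Agent.BR.TwoValInst Fermat.Agent.BR.ConstRedTwo
open Fermat.Agent.BR.SpecialFibre Fermat.Agent.BR.S0
open Fermat.Agent.BR.S0.RedModular Fermat.Agent.BR.S0.RedHyp Fermat.Agent.BR.S0.PointDict
open Fermat.Agent.BR.S0.SmoothLevelsGlue Fermat.Agent.BR.Inst.SpecIso
open Fermat.Agent.BR.Inst.SpecIsoInf Fermat.Agent.BR.Inst.CkPointModular
open Fermat.Agent.BR.Inst.Levels Fermat.Agent.BR.Inst.LevelsInf Fermat.Agent.BR.Inst.NormalModel
open Fermat.Agent.BR.Inst.ChartInLevels Fermat.Agent.BR.S0.GeomModular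
open Fermat.Agent.BR.Inst.Inf.SmoothInstInf Fermat.Agent.BR.Inst.LevelsInst
open Fermat.Agent.BR.Inst.SmoothModularAll Fermat.Agent.BR.S0.SmoothAssembly

set_option synthInstance.maxHeartbeats 400000

variable {M q : ℕ} [NeZero M] [hqF : Fact q.Prime]
variable (B : ValuationSubring Kb) (hB : B.LiesOverPrime q) (hqM : ¬ q ∣ M)

local notation "kB" => IsLocalRing.ResidueField B
local notation "FtM" => modularFunctionFieldFullC (IsLocalRing.ResidueField B) M

set_option maxHeartbeats 3200000 in
/-- **The family of levels at a non-crossing point of the component `0`**, for any proof `H` of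
the atlas hypotheses. -/
def towerFamily_zero_atlas (H : AtlasHyp (chartDataModular B hB hqM) (jx M q))
    (Q : Place kB FtM) (hQ : ∀ e, Q ≠ z₁ (chartDataModular B hB hqM) e) :
    TowerFamily B hqF.out hB (compW B hB hqM 0).O (compW B hB hqM 0).res Q
      {P | H.r P = ⟨0, Q⟩} := by
  haveI := isDedekindDomain_Ck B hB hqM
  haveI := isFractionRing_Ck B hB hqM
  haveI := isDedekindDomain_CkInf B hB hqM
  haveI := isFractionRing_CkInf B hB hqM
  exact towerFamily_zero (Dkf := ↥(Ck M B)) (Dki := ↥(CkInf M B))
    (Cr := compW B hB hqM) (Rfin := chartFin) (Rinf := chartInf)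
    (hfin := chartFin_le B hB hqM) (hinf := chartInf_le B hB hqM) (x := jx M q) H
    (baseFamily_fin (M * q) B hqF.out hB) (baseFamily_inf (M * q) B hqF.out hB) hqF.out hB
    (fun S => levelHyp_fin (levelHyp_tower B hB hqM S))
    (fun S => levelHyp_modular_inf_tower B hB hqM S)
    (not_isField_Ck B hB hqM) (not_isField_CkInf B hB hqM)
    (fun S => chartFin_le_CS B hB S) (fun S => chartInf_le_CS_inf B hB S)
    (fun S => integralAt_CS_of_chartFin B S) (fun S => integralAt_CS_inf_of_chartInf B S)
    (place_deg_eq_one_Ft B hB hqM)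
    (fun Q hQ d => hQDf_zero B hB hqM Q _ hQ d)
    (fun Q hQ d => hQDi_zero B hB hqM Q _ hQ d) Q hQ

set_option maxHeartbeats 3200000 in
/-- **The family of levels at a non-crossing point of the component `1`**, for any proof `H` of
the atlas hypotheses. -/
def towerFamily_one_atlas (H : AtlasHyp (chartDataModular B hB hqM) (jx M q))
    (Q : Place kB FtM) (hQ : ∀ e, Q ≠ z₂ (chartDataModular B hB hqM) e) :
    TowerFamily B hqF.out hB (compW B hB hqM 1).O (compW B hB hqM 1).res Q
      {P | H.r P = ⟨1, Q⟩} := by
  haveI := isDedekindDomain_Ck B hB hqM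
  haveI := isFractionRing_Ck B hB hqM
  haveI := isDedekindDomain_CkInf B hB hqM
  haveI := isFractionRing_CkInf B hB hqM
  exact towerFamily_one (Dkf := ↥(Ck M B)) (Dki := ↥(CkInf M B))
    (Cr := compW B hB hqM) (Rfin := chartFin) (Rinf := chartInf)
    (hfin := chartFin_le B hB hqM) (hinf := chartInf_le B hB hqM) (x := jx M q) H
    (baseFamily_fin (M * q) B hqF.out hB) (baseFamily_inf (M * q) B hqF.out hB) hqF.out hB
    (fun S => levelHyp_fin (levelHyp_tower B hB hqM S))
    (fun S => levelHyp_modular_inf_tower B hB hqM S)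
    (not_isField_Ck B hB hqM) (not_isField_CkInf B hB hqM)
    (fun S => chartFin_le_CS B hB S) (fun S => chartInf_le_CS_inf B hB S)
    (fun S => integralAt_CS_of_chartFin B S) (fun S => integralAt_CS_inf_of_chartInf B S)
    (place_deg_eq_one_Ft B hB hqM)
    (fun Q hQ d => hQDf_one B hB hqM Q _ hQ d)
    (fun Q hQ d => hQDi_one B hB hqM Q _ hQ d) Q hQ

set_option maxHeartbeats 3200000 in
/-- the chart of `towerFamily_zero_atlas` is main's `smooth_zero_atlas` -/
theorem chart_towerFamily_zero_atlas (H : AtlasHyp (chartDataModular B hB hqM) (jx M q))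
    (Q : Place kB FtM) (hQ : ∀ e, Q ≠ z₁ (chartDataModular B hB hqM) e) :
    (towerFamily_zero_atlas B hB hqM H Q hQ).chart (compW B hB hqM 0).res_algebraMap
        (constRed_algebraMap_mem_nonunits (compW B hB hqM 0)) =
      smooth_zero_atlas B hB hqM H Q hQ := by
  haveI := isDedekindDomain_Ck B hB hqM
  haveI := isFractionRing_Ck B hB hqM
  haveI := isDedekindDomain_CkInf B hB hqM
  haveI := isFractionRing_CkInf B hB hqM
  unfold towerFamily_zero_atlas smooth_zero_atlas
  exact chart_towerFamily_zero _ _ _ _ _ _ _ _ _ _ _ _ _ _ _ _ _ _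

set_option maxHeartbeats 3200000 in
/-- the chart of `towerFamily_one_atlas` is main's `smooth_one_atlas` -/
theorem chart_towerFamily_one_atlas (H : AtlasHyp (chartDataModular B hB hqM) (jx M q))
    (Q : Place kB FtM) (hQ : ∀ e, Q ≠ z₂ (chartDataModular B hB hqM) e) :
    (towerFamily_one_atlas B hB hqM H Q hQ).chart (compW B hB hqM 1).res_algebraMap
        (constRed_algebraMap_mem_nonunits (compW B hB hqM 1)) =
      smooth_one_atlas B hB hqM H Q hQ := by
  haveI := isDedekindDomain_Ck B hB hqM
  haveI := isFractionRing_Ck B hB hqM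
  haveI := isDedekindDomain_CkInf B hB hqM
  haveI := isFractionRing_CkInf B hB hqM
  unfold towerFamily_one_atlas smooth_one_atlas
  exact chart_towerFamily_one _ _ _ _ _ _ _ _ _ _ _ _ _ _ _ _ _ _

/-- **The family of levels behind the field `smooth₀` of `Final.ModularData`.** -/
def towerFamily₀_modular (G : GeomInputs B hB hqM) (Q : Place kB FtM)
    (hQ : ∀ e, Q ≠ z₁ (chartDataModular B hB hqM) e) :
    TowerFamily B hqF.out hB (compW B hB hqM 0).O (compW B hB hqM 0).res Q
      {P | (atlasHyp_modular B hB hqM G).r P = ⟨0, Q⟩} :=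
  towerFamily_zero_atlas B hB hqM (atlasHyp_modular B hB hqM G) Q hQ

/-- **The family of levels behind the field `smooth₁` of `Final.ModularData`.** -/
def towerFamily₁_modular (G : GeomInputs B hB hqM) (Q : Place kB FtM)
    (hQ : ∀ e, Q ≠ z₂ (chartDataModular B hB hqM) e) :
    TowerFamily B hqF.out hB (compW B hB hqM 1).O (compW B hB hqM 1).res Q
      {P | (atlasHyp_modular B hB hqM G).r P = ⟨1, Q⟩} :=
  towerFamily_one_atlas B hB hqM (atlasHyp_modular B hB hqM G) Q hQ

theorem chart_towerFamily₀_modular (G : GeomInputs B hB hqM) (Q : Place kB FtM)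
    (hQ : ∀ e, Q ≠ z₁ (chartDataModular B hB hqM) e) :
    (towerFamily₀_modular B hB hqM G Q hQ).chart (compW B hB hqM 0).res_algebraMap
        (constRed_algebraMap_mem_nonunits (compW B hB hqM 0)) =
      smooth₀_modular B hB hqM G Q hQ :=
  chart_towerFamily_zero_atlas B hB hqM _ Q hQ

theorem chart_towerFamily₁_modular (G : GeomInputs B hB hqM) (Q : Place kB FtM)
    (hQ : ∀ e, Q ≠ z₂ (chartDataModular B hB hqM) e) :
    (towerFamily₁_modular B hB hqM G Q hQ).chart (compW B hB hqM 1).res_algebraMap
        (constRed_algebraMap_mem_nonunits (compW B hB hqM 1)) =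
      smooth₁_modular B hB hqM G Q hQ :=
  chart_towerFamily_one_atlas B hB hqM _ Q hQ

end Fermat.Agent.FF3.SmoothFam
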