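/-
PROGRAMME I (S33, p-new half), block B3 (expansion layer), node §4c (helper24): the families of
levels behind the smooth charts of `modularData_final`.

`towerFamily₀_final`, `towerFamily₁_final` : at every point `Q` of either component of the model
of `X₀(qM)` at `q` which is not a crossing, the `TowerFamily` on the tube
`{P | (atlasHyp_modular B hB hqM (geomInputs_modular_final B hB hqM)).r P = ⟨v, Q⟩}` — the tube
of `Q` in `Final.setupFinal`; `modularData_final_smooth₀`, `modularData_final_smooth₁` : the
fields `smooth₀`, `smooth₁` of `modularData_final` are their charts.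
-/
import Mathlib
import Fermat.Agent.BR.Inst.AnnulusInstFinal
import Fermat.Agent.FF3.SmoothFam.Modular

set_option autoImplicit false
set_option linter.unusedSectionVars false
set_option linter.style.haveILetI false

noncomputable section

namespace Fermat.Agent.FF3.SmoothFam

open ModularCurve ModularCurve.IgusaScheme AlgebraicCurve IsLocalRing
open Fermat.Agent.X0 Fermat.Agent.Val Fermat.Agent.Red Fermat.Agent.BR.Centre
open Fermat.Agent.BR.TwoVal Fermat.Agent.BR.TwoValInst Fermat.Agent.BR.ConstRedTwo
open Fermat.Agent.BR.SpecialFibre Fermat.Agent.BR.S0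
open Fermat.Agent.BR.S0.RedModular Fermat.Agent.BR.S0.RedHyp Fermat.Agent.BR.S0.PointDict
open Fermat.Agent.BR.Inst.SpecIso Fermat.Agent.BR.Inst.Levels
open Fermat.Agent.BR.S0.GeomModular Fermat.Agent.BR.S0.GeomFinal
open Fermat.Agent.BR.Inst.SmoothModularAll Fermat.Agent.BR.S0.SmoothAssembly
open Fermat.Agent.BR.Inst.AnnulusInstFinal

set_option synthInstance.maxHeartbeats 400000

variable {M q : ℕ} [NeZero M] [hqF : Fact q.Prime]
variable (B : ValuationSubring Kb) (hB : B.LiesOverPrime q) (hqM : ¬ q ∣ M)

local notation "kB" => IsLocalRing.ResidueField B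
local notation "FtM" => modularFunctionFieldFullC (IsLocalRing.ResidueField B) M

/-- **The family of levels at a non-crossing point of the component `0` of `Final.setupFinal`.** -/
def towerFamily₀_final (Q : Place kB FtM) (hQ : ∀ e, Q ≠ z₁ (chartDataModular B hB hqM) e) :
    TowerFamily B hqF.out hB (compW B hB hqM 0).O (compW B hB hqM 0).res Q
      {P | (atlasHyp_modular B hB hqM (geomInputs_modular_final B hB hqM)).r P = ⟨0, Q⟩} :=
  towerFamily₀_modular B hB hqM (geomInputs_modular_final B hB hqM) Q hQ

/-- **The family of levels at a non-crossing point of the component `1` of `Final.setupFinal`.** -/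
def towerFamily₁_final (Q : Place kB FtM) (hQ : ∀ e, Q ≠ z₂ (chartDataModular B hB hqM) e) :
    TowerFamily B hqF.out hB (compW B hB hqM 1).O (compW B hB hqM 1).res Q
      {P | (atlasHyp_modular B hB hqM (geomInputs_modular_final B hB hqM)).r P = ⟨1, Q⟩} :=
  towerFamily₁_modular B hB hqM (geomInputs_modular_final B hB hqM) Q hQ

/-- the field `G` of `modularData_final` -/
theorem modularData_final_G [IsAlgClosed (ResidueField B)] :
    (modularData_final B hB hqM).G = geomInputs_modular_final B hB hqM := rfl

/-- **the field `smooth₀` of `modularData_final` is the chart of `towerFamily₀_final`** -/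
theorem modularData_final_smooth₀ [IsAlgClosed (ResidueField B)] (Q : Place kB FtM)
    (hQ : ∀ e, Q ≠ z₁ (chartDataModular B hB hqM) e) :
    (modularData_final B hB hqM).smooth₀ Q hQ =
      (towerFamily₀_final B hB hqM Q hQ).chart (compW B hB hqM 0).res_algebraMap
        (constRed_algebraMap_mem_nonunits (compW B hB hqM 0)) :=
  (chart_towerFamily₀_modular B hB hqM (geomInputs_modular_final B hB hqM) Q hQ).symm

/-- **the field `smooth₁` of `modularData_final` is the chart of `towerFamily₁_final`** -/
theorem modularData_final_smooth₁ [IsAlgClosed (ResidueField B)] (Q : Place kB FtM)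
    (hQ : ∀ e, Q ≠ z₂ (chartDataModular B hB hqM) e) :
    (modularData_final B hB hqM).smooth₁ Q hQ =
      (towerFamily₁_final B hB hqM Q hQ).chart (compW B hB hqM 1).res_algebraMap
        (constRed_algebraMap_mem_nonunits (compW B hB hqM 1)) :=
  (chart_towerFamily₁_modular B hB hqM (geomInputs_modular_final B hB hqM) Q hQ).symm

end Fermat.Agent.FF3.SmoothFam
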